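/-
S52, node [HUR-GAL] (helper27).  Prefix `s52u_`.  Part 1: NO WILD INERTIA IN RESIDUE CHARACTERISTIC 0.

`A` a discrete valuation ring containing a field `K` of characteristic `0` which maps ONTO the
residue field; `σ : A →+* A` a `K`-linear ring endomorphism of finite order (`σ^[m] = id`, `0 < m`).
Then `σ` preserves the powers of the maximal ideal (`s52u_map_pow_mem`), acts trivially on the
residue field (`s52u_sub_mem`), and if `σ π ≡ π mod 𝔪²` for a uniformiser `π` then `σ = id`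
(`s52u_tame`): telescoping `σ^[m] g - g ≡ m (σ g - g)` modulo a higher power of `𝔪` + Krull.
Mathlib only.
-/
import Mathlib

set_option autoImplicit false
set_option linter.unusedSectionVars false

namespace Fermat.Agent.S52

open IsLocalRing

section Tame

variable {A : Type*} [CommRing A] [IsDomain A] [IsDiscreteValuationRing A]
  {K : Type*} [Field K] [Algebra K A]

/-- iterates of a ring endomorphism preserve units. -/
theorem s52u_isUnit_iterate (σ : A →+* A) (k : ℕ) {y : A} (hy : IsUnit y) : IsUnit (σ^[k] y) := by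
  induction k with
  | zero => exact hy
  | succ k ih =>
    rw [Function.iterate_succ_apply']
    exact ih.map σ

/-- a ring endomorphism of finite order preserves the maximal ideal. -/
theorem s52u_map_mem (σ : A →+* A) {m : ℕ} (hm : 0 < m) (hσm : ∀ g, σ^[m] g = g) {g : A}
    (hg : g ∈ maximalIdeal A) : σ g ∈ maximalIdeal A := by
  rw [mem_maximalIdeal, mem_nonunits_iff] at hg ⊢
  intro hu
  apply hg
  obtain ⟨k, rfl⟩ : ∃ k, m = k + 1 := ⟨m - 1, by omega⟩
  have h1 := s52u_isUnit_iterate σ k hu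
  rw [← Function.iterate_succ_apply, hσm] at h1
  exact h1

variable (σ : A →+* A) (hσK : ∀ a : K, σ (algebraMap K A a) = algebraMap K A a)
  (hres : ∀ g : A, ∃ a : K, g - algebraMap K A a ∈ maximalIdeal A)
  {m : ℕ} (hm : 0 < m) (hσm : ∀ g, σ^[m] g = g)

include hσK hres hm hσm in
/-- `σ` acts trivially on the residue field. -/
theorem s52u_sub_mem (g : A) : σ g - g ∈ maximalIdeal A := by
  obtain ⟨a, ha⟩ := hres g
  have h1 : σ g - g = σ (g - algebraMap K A a) - (g - algebraMap K A a) := by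
    rw [map_sub, hσK]
    ring
  rw [h1]
  exact sub_mem (s52u_map_mem σ hm hσm ha) ha

include hm hσm in
/-- `σ(π) ^ N - π ^ N ∈ 𝔪 ^ (N + 1)` if `σ π - π ∈ 𝔪 ^ 2`. -/
theorem s52u_pow_sub_pow {π : A} (hπ : π ∈ maximalIdeal A)
    (hχ : σ π - π ∈ maximalIdeal A ^ 2) (N : ℕ) :
    σ π ^ N - π ^ N ∈ maximalIdeal A ^ (N + 1) := by
  induction N with
  | zero => simp
  | succ N ih =>
    have h1 : σ π ^ (N + 1) - π ^ (N + 1) = σ π * (σ π ^ N - π ^ N) + (σ π - π) * π ^ N := by
      ring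
    rw [h1]
    refine add_mem ?_ ?_
    · rw [pow_succ' (maximalIdeal A) (N + 1)]
      exact Ideal.mul_mem_mul (s52u_map_mem σ hm hσm hπ) ih
    · have e : N + 1 + 1 = 2 + N := by ring
      rw [e, pow_add]
      exact Ideal.mul_mem_mul hχ (Ideal.pow_mem_pow hπ N)

include hσK hres hm hσm in
/-- the key congruence: `σ d ≡ d mod 𝔪 ^ (N + 1)` for `d ∈ 𝔪 ^ N`. -/
theorem s52u_sub_mem_pow {π : A} (hπ : Irreducible π)
    (hχ : σ π - π ∈ maximalIdeal A ^ 2) (N : ℕ) {d : A} (hd : d ∈ maximalIdeal A ^ N) :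
    σ d - d ∈ maximalIdeal A ^ (N + 1) := by
  have hπm : π ∈ maximalIdeal A := by
    rw [hπ.maximalIdeal_eq]
    exact Ideal.mem_span_singleton_self π
  rw [hπ.maximalIdeal_eq, Ideal.span_singleton_pow, Ideal.mem_span_singleton] at hd
  obtain ⟨w, rfl⟩ := hd
  have h1 : σ (π ^ N * w) - π ^ N * w = (σ w - w) * σ π ^ N + w * (σ π ^ N - π ^ N) := by
    rw [map_mul, map_pow]
    ring
  rw [h1]
  refine add_mem ?_ (Ideal.mul_mem_left _ _ (s52u_pow_sub_pow σ hm hσm hπm hχ N))
  rw [pow_succ' (maximalIdeal A) N]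
  exact Ideal.mul_mem_mul (s52u_sub_mem σ hσK hres hm hσm w)
    (Ideal.pow_mem_pow (s52u_map_mem σ hm hσm hπm) N)

include hσK hres hm hσm in
/-- `σ` preserves `𝔪 ^ N`. -/
theorem s52u_map_pow_mem {π : A} (hπ : Irreducible π)
    (hχ : σ π - π ∈ maximalIdeal A ^ 2) (N : ℕ) {d : A} (hd : d ∈ maximalIdeal A ^ N) :
    σ d ∈ maximalIdeal A ^ N := by
  have h1 := s52u_sub_mem_pow σ hσK hres hm hσm hπ hχ N hd
  have h2 : σ d = (σ d - d) + d := by ring
  rw [h2]
  exact add_mem (Ideal.pow_le_pow_right (Nat.le_succ N) h1) hd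

include hσK hres hm hσm in
/-- iterates: `σ^[k] d ≡ d mod 𝔪 ^ (N + 1)` for `d ∈ 𝔪 ^ N`. -/
theorem s52u_iterate_sub_mem_pow {π : A} (hπ : Irreducible π)
    (hχ : σ π - π ∈ maximalIdeal A ^ 2) (N : ℕ) {d : A} (hd : d ∈ maximalIdeal A ^ N) (k : ℕ) :
    σ^[k] d ∈ maximalIdeal A ^ N ∧ σ^[k] d - d ∈ maximalIdeal A ^ (N + 1) := by
  induction k with
  | zero => exact ⟨hd, by simp⟩
  | succ k ih =>
    rw [Function.iterate_succ_apply']
    refine ⟨s52u_map_pow_mem σ hσK hres hm hσm hπ hχ N ih.1, ?_⟩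
    have h1 : σ (σ^[k] d) - d = (σ (σ^[k] d) - σ^[k] d) + (σ^[k] d - d) := by ring
    rw [h1]
    exact add_mem (s52u_sub_mem_pow σ hσK hres hm hσm hπ hχ N ih.1) ih.2

include hσK hres hm hσm in
/-- telescoping: `σ^[k] g - g ≡ k (σ g - g) mod 𝔪 ^ (N + 1)` if `σ g - g ∈ 𝔪 ^ N`. -/
theorem s52u_telescope {π : A} (hπ : Irreducible π)
    (hχ : σ π - π ∈ maximalIdeal A ^ 2) (N : ℕ) (g : A) (hd : σ g - g ∈ maximalIdeal A ^ N)
    (k : ℕ) : σ^[k] g - g - k * (σ g - g) ∈ maximalIdeal A ^ (N + 1) := by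
  induction k with
  | zero => simp
  | succ k ih =>
    have h1 : σ^[k + 1] g = σ^[k] g + σ^[k] (σ g - g) := by
      rw [Function.iterate_succ_apply]
      have h2 : σ g = g + (σ g - g) := by ring
      conv_lhs => rw [h2]
      exact iterate_map_add σ k g (σ g - g)
    have h3 : σ^[k + 1] g - g - ((k + 1 : ℕ) : A) * (σ g - g) =
        (σ^[k] g - g - k * (σ g - g)) + (σ^[k] (σ g - g) - (σ g - g)) := by
      rw [h1]
      push_cast
      ring
    rw [h3]
    exact add_mem ih (s52u_iterate_sub_mem_pow σ hσK hres hm hσm hπ hχ N hd k).2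

include hσK hres hm hσm in
/-- **no wild inertia**: `σ π ≡ π mod 𝔪²` forces `σ = id` (characteristic `0`). -/
theorem s52u_tame [CharZero K] {π : A} (hπ : Irreducible π)
    (hχ : σ π - π ∈ maximalIdeal A ^ 2) (g : A) : σ g = g := by
  have hmu : IsUnit ((m : ℕ) : A) := by
    have h1 : IsUnit ((m : ℕ) : K) := by
      rw [isUnit_iff_ne_zero]
      exact Nat.cast_ne_zero.mpr hm.ne'
    have h2 := h1.map (algebraMap K A)
    rwa [map_natCast] at h2
  have key : ∀ N : ℕ, σ g - g ∈ maximalIdeal A ^ N := by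
    intro N
    induction N with
    | zero => simp
    | succ N ih =>
      have h1 := s52u_telescope σ hσK hres hm hσm hπ hχ N g ih m
      rw [hσm, sub_self, zero_sub, neg_mem_iff] at h1
      obtain ⟨u, hu⟩ := hmu
      have h2 : σ g - g = ((u⁻¹ : Aˣ) : A) * ((m : A) * (σ g - g)) := by
        rw [← mul_assoc, ← hu, Units.inv_mul, one_mul]
      rw [h2]
      exact Ideal.mul_mem_left _ _ h1
  have h0 : σ g - g ∈ (⨅ i : ℕ, maximalIdeal A ^ i) := by
    rw [Ideal.mem_iInf]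
    exact key
  rw [Ideal.iInf_pow_eq_bot_of_isLocalRing (maximalIdeal A) (maximalIdeal.isMaximal A).ne_top,
    Ideal.mem_bot] at h0
  exact sub_eq_zero.mp h0

end Tame

end Fermat.Agent.S52
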