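/-
S52, node [HUR-GAL] (helper27).  Prefix `s52u_`.  Part 2: THE STABILISER OF A PLACE IS CYCLIC.

`K` algebraically closed of characteristic `0`, `F / K` a function field, `x ∈ F`,
`G = Gal(F / K(x))` finite, `v` a place of `F / K`, `A = O_v`.  `G` acts on the valuation subrings of
`F` (Mathlib's pointwise action); the stabiliser `D` of `A` acts on `A`, trivially on the residue
field `K`, and `σ ↦ (σ π / π mod 𝔪)` is an injective homomorphism `D → (A / 𝔪)ˣ` (`Tame.lean`), so
`D` is cyclic:

* `s52u_smul σ v`       : the translated place `σ • v`;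
* `s52u_stab_isCyclic`  : `IsCyclic (stabilizer G A)`;
* `s52u_stab_card_dvd`  : `(∀ σ ∈ D, σ ^ e = 1) → Nat.card D ∣ e`.
-/
import Mathlib
import Fermat.Agent.S24.Hurwitz.Interface
import Fermat.Agent.S52.HUR.Tame

set_option autoImplicit false
set_option linter.unusedSectionVars false

noncomputable section

namespace Fermat.Agent.S52

open AlgebraicCurve IntermediateField IsLocalRing
open Fermat.Agent.S24
open scoped Pointwise

universe u v
variable {K : Type u} {F : Type v} [Field K] [Field F] [Algebra K F]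

section Action

variable {x : F}

/-- an automorphism over `K(x)` fixes the constants. -/
theorem s52u_fix_const (σ : F ≃ₐ[K⟮x⟯] F) (a : K) : σ (algebraMap K F a) = algebraMap K F a := by
  rw [IsScalarTower.algebraMap_apply K K⟮x⟯ F, σ.commutes]

/-- an automorphism over `K(x)` fixes `x`. -/
theorem s52u_fix_x (σ : F ≃ₐ[K⟮x⟯] F) : σ x = x := by
  have h := σ.commutes (⟨x, mem_adjoin_simple_self K x⟩ : K⟮x⟯)
  exact h

/-- the translate `σ • v` of a place. -/
def s52u_smul (σ : F ≃ₐ[K⟮x⟯] F) (v : Place K F) : Place K F where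
  toValuationSubring := σ • v.toValuationSubring
  algebraMap_mem' a := by
    rw [← s52u_fix_const σ a]
    exact ValuationSubring.smul_mem_pointwise_smul σ _ _ (v.algebraMap_mem' a)
  ne_top' := by
    intro h
    apply v.ne_top'
    refine SetLike.ext fun f => ⟨fun _ => ValuationSubring.mem_top f, fun _ => ?_⟩
    have h1 : σ • f ∈ σ • v.toValuationSubring := by
      rw [h]
      exact ValuationSubring.mem_top _
    exact ValuationSubring.smul_mem_pointwise_smul_iff.mp h1
  isPrincipalIdealRing' := by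
    let f : ↥v.toValuationSubring →+* ↥(σ • v.toValuationSubring) :=
      RingHom.codRestrict ((σ : F →+* F).comp v.toValuationSubring.subtype)
        (σ • v.toValuationSubring)
        (fun g => ValuationSubring.smul_mem_pointwise_smul σ _ _ g.2)
    have hf : Function.Surjective f := by
      rintro ⟨y, hy⟩
      obtain ⟨g, hg, rfl⟩ := (ValuationSubring.mem_smul_pointwise_iff_exists σ y _).mp hy
      exact ⟨⟨g, hg⟩, rfl⟩
    exact IsPrincipalIdealRing.of_surjective f hf

@[simp] theorem s52u_smul_toValuationSubring (σ : F ≃ₐ[K⟮x⟯] F) (v : Place K F) :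
    (s52u_smul σ v).toValuationSubring = σ • v.toValuationSubring := rfl

end Action

section Stab

variable [IsAlgClosed K] [CharZero K] {x : F} [FiniteDimensional K⟮x⟯ F]

/-- the restriction to `A = O_v` of an automorphism stabilising `A`. -/
def s52u_res (v : Place K F) (σ : F ≃ₐ[K⟮x⟯] F)
    (hσ : σ • v.toValuationSubring = v.toValuationSubring) :
    ↥v.toValuationSubring →+* ↥v.toValuationSubring :=
  RingHom.codRestrict ((σ : F →+* F).comp v.toValuationSubring.subtype) v.toValuationSubring
    (fun g => by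
      have h1 := ValuationSubring.smul_mem_pointwise_smul σ _ _ g.2
      rw [hσ] at h1
      exact h1)

theorem s52u_res_coe (v : Place K F) (σ : F ≃ₐ[K⟮x⟯] F)
    (hσ : σ • v.toValuationSubring = v.toValuationSubring) (g : ↥v.toValuationSubring) :
    ((s52u_res v σ hσ g : ↥v.toValuationSubring) : F) = σ (g : F) := rfl

theorem s52u_pow_stab (v : Place K F) (σ : F ≃ₐ[K⟮x⟯] F)
    (hσ : σ • v.toValuationSubring = v.toValuationSubring) (k : ℕ) :
    (σ ^ k) • v.toValuationSubring = v.toValuationSubring := by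
  induction k with
  | zero => rw [pow_zero, one_smul]
  | succ k ih => rw [pow_succ, mul_smul, hσ, ih]

theorem s52u_res_iterate (v : Place K F) (σ : F ≃ₐ[K⟮x⟯] F)
    (hσ : σ • v.toValuationSubring = v.toValuationSubring) (k : ℕ) (g : ↥v.toValuationSubring) :
    (((s52u_res v σ hσ)^[k] g : ↥v.toValuationSubring) : F) = (σ ^ k) (g : F) := by
  induction k generalizing g with
  | zero => rfl
  | succ k ih =>
    rw [Function.iterate_succ_apply, ih, s52u_res_coe, pow_succ]
    rfl

/-- every element of `O_v` is congruent to a constant. -/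
theorem s52u_hres (x : F) [FiniteDimensional K⟮x⟯ F] (v : Place K F) (g : ↥v.toValuationSubring) :
    ∃ a : K, g - algebraMap K ↥v.toValuationSubring a ∈ maximalIdeal ↥v.toValuationSubring := by
  obtain ⟨c, hc⟩ := hw_algebraMap_residueField_surjective x v
    (IsLocalRing.residue v.toValuationSubring g)
  refine ⟨c, ?_⟩
  rw [← IsLocalRing.residue_eq_zero_iff, map_sub, ← hc]
  exact sub_self _

theorem s52u_res_K (v : Place K F) (σ : F ≃ₐ[K⟮x⟯] F)
    (hσ : σ • v.toValuationSubring = v.toValuationSubring) (a : K) :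
    s52u_res v σ hσ (algebraMap K ↥v.toValuationSubring a) =
      algebraMap K ↥v.toValuationSubring a := by
  apply Subtype.ext
  rw [s52u_res_coe]
  exact s52u_fix_const σ a

theorem s52u_res_order (v : Place K F) (σ : F ≃ₐ[K⟮x⟯] F)
    (hσ : σ • v.toValuationSubring = v.toValuationSubring) (g : ↥v.toValuationSubring) :
    (s52u_res v σ hσ)^[orderOf σ] g = g := by
  apply Subtype.ext
  rw [s52u_res_iterate, pow_orderOf_eq_one]
  rfl

/-- `σ` acts trivially on the residue field. -/
theorem s52u_res_sub_mem (v : Place K F) (σ : F ≃ₐ[K⟮x⟯] F)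
    (hσ : σ • v.toValuationSubring = v.toValuationSubring) (g : ↥v.toValuationSubring) :
    s52u_res v σ hσ g - g ∈ maximalIdeal ↥v.toValuationSubring :=
  s52u_sub_mem (s52u_res v σ hσ) (s52u_res_K v σ hσ) (s52u_hres x v) (orderOf_pos σ)
    (s52u_res_order v σ hσ) g

/-- `σ` preserves the maximal ideal. -/
theorem s52u_res_map_mem (v : Place K F) (σ : F ≃ₐ[K⟮x⟯] F)
    (hσ : σ • v.toValuationSubring = v.toValuationSubring) {g : ↥v.toValuationSubring}
    (hg : g ∈ maximalIdeal ↥v.toValuationSubring) :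
    s52u_res v σ hσ g ∈ maximalIdeal ↥v.toValuationSubring :=
  s52u_map_mem (s52u_res v σ hσ) (orderOf_pos σ) (s52u_res_order v σ hσ) hg

/-- the restriction is the identity as soon as it is so modulo `𝔪²` on a uniformiser. -/
theorem s52u_res_tame (v : Place K F) (σ : F ≃ₐ[K⟮x⟯] F)
    (hσ : σ • v.toValuationSubring = v.toValuationSubring)
    {π : ↥v.toValuationSubring} (hπ : Irreducible π)
    (hχ : s52u_res v σ hσ π - π ∈ maximalIdeal ↥v.toValuationSubring ^ 2) : σ = 1 := by
  have key := s52u_tame (s52u_res v σ hσ) (s52u_res_K v σ hσ) (s52u_hres x v) (orderOf_pos σ)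
    (s52u_res_order v σ hσ) hπ hχ
  have hA : ∀ f ∈ v.toValuationSubring, σ f = f := fun f hf =>
    congrArg Subtype.val (key ⟨f, hf⟩)
  ext f
  show σ f = f
  rcases v.toValuationSubring.mem_or_inv_mem f with hf | hf
  · exact hA f hf
  · have h1 := hA _ hf
    rw [map_inv₀] at h1
    exact inv_injective h1

end Stab

section Cyclic

variable [IsAlgClosed K] [CharZero K] {x : F} [FiniteDimensional K⟮x⟯ F]

/-- `σ π = π * u` for `σ` in the stabiliser. -/
theorem s52u_exists_unit (v : Place K F) {π : ↥v.toValuationSubring} (hπ : Irreducible π)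
    (σ : F ≃ₐ[K⟮x⟯] F) (hσ : σ • v.toValuationSubring = v.toValuationSubring) :
    ∃ w : ↥v.toValuationSubring, s52u_res v σ hσ π = π * w := by
  have hπm : π ∈ maximalIdeal ↥v.toValuationSubring := by
    rw [hπ.maximalIdeal_eq]
    exact Ideal.mem_span_singleton_self π
  have h1 := s52u_res_map_mem v σ hσ hπm
  rw [hπ.maximalIdeal_eq, Ideal.mem_span_singleton] at h1
  exact h1

/-- the multiplier `σ π / π`. -/
def s52u_mult (v : Place K F) {π : ↥v.toValuationSubring} (hπ : Irreducible π)
    (σ : ↥(MulAction.stabilizer (F ≃ₐ[K⟮x⟯] F) v.toValuationSubring)) : ↥v.toValuationSubring :=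
  Classical.choose (s52u_exists_unit v hπ σ.1 (MulAction.mem_stabilizer_iff.mp σ.2))

theorem s52u_mult_spec (v : Place K F) {π : ↥v.toValuationSubring} (hπ : Irreducible π)
    (σ : ↥(MulAction.stabilizer (F ≃ₐ[K⟮x⟯] F) v.toValuationSubring)) :
    s52u_res v σ.1 (MulAction.mem_stabilizer_iff.mp σ.2) π = π * s52u_mult v hπ σ :=
  Classical.choose_spec (s52u_exists_unit v hπ σ.1 (MulAction.mem_stabilizer_iff.mp σ.2))

/-- the tame character `σ ↦ σ π / π mod 𝔪`. -/
def s52u_chi (v : Place K F) {π : ↥v.toValuationSubring} (hπ : Irreducible π) :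
    ↥(MulAction.stabilizer (F ≃ₐ[K⟮x⟯] F) v.toValuationSubring) →*
      IsLocalRing.ResidueField ↥v.toValuationSubring where
  toFun σ := IsLocalRing.residue _ (s52u_mult v hπ σ)
  map_one' := by
    have h1 := s52u_mult_spec v hπ (1 : ↥(MulAction.stabilizer (F ≃ₐ[K⟮x⟯] F) v.toValuationSubring))
    have h2 : s52u_res v ((1 : ↥(MulAction.stabilizer (F ≃ₐ[K⟮x⟯] F) v.toValuationSubring)) :
        F ≃ₐ[K⟮x⟯] F) (MulAction.mem_stabilizer_iff.mp (1 : ↥(MulAction.stabilizer
          (F ≃ₐ[K⟮x⟯] F) v.toValuationSubring)).2) π = π := by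
      apply Subtype.ext
      rfl
    rw [h2] at h1
    have h3 : s52u_mult (x := x) v hπ 1 = 1 := by
      have h4 : π * 1 = π * s52u_mult (x := x) v hπ 1 := by rw [mul_one]; exact h1
      exact (mul_left_cancel₀ hπ.ne_zero h4).symm
    rw [h3, map_one]
  map_mul' σ τ := by
    have hσ := MulAction.mem_stabilizer_iff.mp σ.2
    have hτ := MulAction.mem_stabilizer_iff.mp τ.2
    have h1 := s52u_mult_spec v hπ (σ * τ)
    have h2 : s52u_res v ((σ * τ : ↥(MulAction.stabilizer (F ≃ₐ[K⟮x⟯] F) v.toValuationSubring)) :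
        F ≃ₐ[K⟮x⟯] F) (MulAction.mem_stabilizer_iff.mp (σ * τ).2) π =
        s52u_res v σ.1 hσ (s52u_res v τ.1 hτ π) := by
      apply Subtype.ext
      rfl
    rw [h2, s52u_mult_spec v hπ τ, map_mul, s52u_mult_spec v hπ σ, mul_assoc] at h1
    have h3 := mul_left_cancel₀ hπ.ne_zero h1
    rw [← h3, map_mul]
    congr 1
    have h4 := s52u_res_sub_mem v σ.1 hσ (s52u_mult v hπ τ)
    rw [← IsLocalRing.residue_eq_zero_iff, map_sub, sub_eq_zero] at h4
    exact h4

theorem s52u_chi_injective (v : Place K F) {π : ↥v.toValuationSubring} (hπ : Irreducible π) :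
    Function.Injective (s52u_chi (x := x) v hπ) := by
  rw [injective_iff_map_eq_one]
  intro σ hσ1
  have hσ := MulAction.mem_stabilizer_iff.mp σ.2
  have h1 : IsLocalRing.residue _ (s52u_mult v hπ σ - 1) = 0 := by
    rw [map_sub, map_one, sub_eq_zero]
    exact hσ1
  rw [IsLocalRing.residue_eq_zero_iff] at h1
  have hπm : π ∈ maximalIdeal ↥v.toValuationSubring := by
    rw [hπ.maximalIdeal_eq]
    exact Ideal.mem_span_singleton_self π
  have h2 : s52u_res v σ.1 hσ π - π ∈ maximalIdeal ↥v.toValuationSubring ^ 2 := by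
    rw [s52u_mult_spec v hπ σ, pow_two]
    have e : π * s52u_mult v hπ σ - π = π * (s52u_mult v hπ σ - 1) := by ring
    rw [e]
    exact Ideal.mul_mem_mul hπm h1
  exact Subtype.ext (s52u_res_tame v σ.1 hσ hπ h2)

/-- **the stabiliser of a place is cyclic.** -/
theorem s52u_stab_isCyclic (x : F) [FiniteDimensional K⟮x⟯ F] (v : Place K F) :
    IsCyclic ↥(MulAction.stabilizer (F ≃ₐ[K⟮x⟯] F) v.toValuationSubring) := by
  obtain ⟨π, hπ⟩ := IsDiscreteValuationRing.exists_irreducible ↥v.toValuationSubring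
  exact isCyclic_of_injective_ringHom (s52u_chi v hπ) (s52u_chi_injective v hπ)

/-- **order of the stabiliser.** -/
theorem s52u_stab_card_dvd (x : F) [FiniteDimensional K⟮x⟯ F] (v : Place K F) (e : ℕ)
    (he : ∀ σ : F ≃ₐ[K⟮x⟯] F, σ • v.toValuationSubring = v.toValuationSubring → σ ^ e = 1) :
    Nat.card ↥(MulAction.stabilizer (F ≃ₐ[K⟮x⟯] F) v.toValuationSubring) ∣ e := by
  have := s52u_stab_isCyclic x v
  obtain ⟨g, hg⟩ := IsCyclic.exists_generator
    (α := ↥(MulAction.stabilizer (F ≃ₐ[K⟮x⟯] F) v.toValuationSubring))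
  rw [← orderOf_eq_card_of_forall_mem_zpowers hg]
  apply orderOf_dvd_of_pow_eq_one
  apply Subtype.ext
  rw [Subgroup.coe_pow]
  exact he g.1 (MulAction.mem_stabilizer_iff.mp g.2)

end Cyclic

end Fermat.Agent.S52
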