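/-
S52, node [HUR-GAL] (helper27).  Prefix `s52u_`.  Part 3: FROM POINTWISE INERTIA BOUNDS TO GENUS `0`.

`K` algebraically closed of characteristic `0`, `F / K(x)` finite Galois with group `G`.  If every
`σ ∈ G` stabilising a place over `x = c` (`c ≠ c₀, c₁`) is trivial, and `σ ^ 3 = 1`, `σ ^ 2 = 1`,
`σ ^ 5 = 1` for `σ` stabilising a place over `c₀`, `c₁`, `∞`, then the genus of `F` is `0`:

  `s52u_main`.

Orbit–stabiliser on the valuation subrings (`e · #{places over c} ≥ [F : K(x)]` since the stabiliser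
is cyclic of exponent dividing `e`, `Stab.lean`) + helper26's `s52r_genus_zero_of_neg`:
`30 (-2 n + 3 n - N₀ - N₁ - N∞) ≤ -n < 0`.
-/
import Mathlib
import Fermat.Agent.S52.HUR.Stab
import Fermat.Agent.S52.RAT.Hur

set_option autoImplicit false
set_option linter.unusedSectionVars false

noncomputable section

namespace Fermat.Agent.S52

open AlgebraicCurve IntermediateField IsLocalRing
open Fermat.Agent.S24
open scoped Pointwise

universe u v
variable {K : Type u} {F : Type v} [Field K] [Field F] [Algebra K F]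

section Count

variable {x : F}

theorem s52u_sub_ne_zero (hx : Transcendental K x) (c : K) : x - algebraMap K F c ≠ 0 := by
  intro h
  apply hx
  rw [sub_eq_zero.mp h]
  exact isAlgebraic_algebraMap c

theorem s52u_mem_placesOver_iff (hx : Transcendental K x) (v : Place K F) (c : K) :
    v ∈ hw_placesOver x c ↔ (x - algebraMap K F c)⁻¹ ∉ v.toValuationSubring :=
  hw_ord_pos_iff v (s52u_sub_ne_zero hx c)

theorem s52u_mem_placesAtInfty_iff (hx : Transcendental K x) (v : Place K F) :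
    v ∈ hw_placesAtInfty (K := K) x ↔ x ∉ v.toValuationSubring := by
  have hx0 : x ≠ 0 := by
    intro h
    apply hx
    rw [h]
    exact isAlgebraic_zero
  show v.ord x < 0 ↔ _
  rw [hw_mem_iff_ord_nonneg v hx0]
  omega

theorem s52u_smul_mem_placesOver (hx : Transcendental K x) (σ : F ≃ₐ[K⟮x⟯] F) (v : Place K F)
    (c : K) (hv : v ∈ hw_placesOver x c) : s52u_smul σ v ∈ hw_placesOver x c := by
  rw [s52u_mem_placesOver_iff hx] at hv ⊢
  rw [s52u_smul_toValuationSubring, ValuationSubring.mem_pointwise_smul_iff_inv_smul_mem]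
  have h1 : σ⁻¹ • (x - algebraMap K F c)⁻¹ = (x - algebraMap K F c)⁻¹ := by
    show σ⁻¹ ((x - algebraMap K F c)⁻¹) = _
    rw [map_inv₀, map_sub, s52u_fix_x, s52u_fix_const]
  rw [h1]
  exact hv

theorem s52u_smul_mem_placesAtInfty (hx : Transcendental K x) (σ : F ≃ₐ[K⟮x⟯] F) (v : Place K F)
    (hv : v ∈ hw_placesAtInfty (K := K) x) : s52u_smul σ v ∈ hw_placesAtInfty (K := K) x := by
  rw [s52u_mem_placesAtInfty_iff hx] at hv ⊢
  rw [s52u_smul_toValuationSubring, ValuationSubring.mem_pointwise_smul_iff_inv_smul_mem]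
  have h1 : σ⁻¹ • x = x := s52u_fix_x σ⁻¹
  rw [h1]
  exact hv

variable [FiniteDimensional K⟮x⟯ F] [IsGalois K⟮x⟯ F]

/-- **orbit–stabiliser**: a `G`-stable finite set of places containing `v` has at least
`[F : K(x)] / |Stab v|` elements. -/
theorem s52u_card_mul_ncard (S : Set (Place K F)) (hS : S.Finite)
    (hstab : ∀ (σ : F ≃ₐ[K⟮x⟯] F) (w : Place K F), w ∈ S → s52u_smul σ w ∈ S)
    (v : Place K F) (hv : v ∈ S) :
    Module.finrank K⟮x⟯ F ≤
      Nat.card ↥(MulAction.stabilizer (F ≃ₐ[K⟮x⟯] F) v.toValuationSubring) * S.ncard := by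
  have h1 : Nat.card ↥(MulAction.stabilizer (F ≃ₐ[K⟮x⟯] F) v.toValuationSubring) *
      (MulAction.stabilizer (F ≃ₐ[K⟮x⟯] F) v.toValuationSubring).index =
      Nat.card (F ≃ₐ[K⟮x⟯] F) := Subgroup.card_mul_index _
  rw [IsGalois.card_aut_eq_finrank, MulAction.index_stabilizer] at h1
  rw [← h1]
  apply Nat.mul_le_mul_left
  have h2 : MulAction.orbit (F ≃ₐ[K⟮x⟯] F) v.toValuationSubring ⊆
      Place.toValuationSubring '' S := by
    rintro _ ⟨σ, rfl⟩
    exact ⟨s52u_smul σ v, hstab σ v hv, rfl⟩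
  calc (MulAction.orbit (F ≃ₐ[K⟮x⟯] F) v.toValuationSubring).ncard
      ≤ (Place.toValuationSubring '' S).ncard := Set.ncard_le_ncard h2 (hS.image _)
    _ = S.ncard := Set.ncard_image_of_injective S Place.toValuationSubring_injective

end Count

section Main

variable [IsAlgClosed K] [CharZero K] {x : F} [FiniteDimensional K⟮x⟯ F] [IsGalois K⟮x⟯ F]

theorem s52u_finrank_pos : 0 < Module.finrank K⟮x⟯ F := Module.finrank_pos

/-- the fibre over `c` is not empty. -/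
theorem s52u_placesOver_nonempty (hx : Transcendental K x) (c : K) :
    (hw_placesOver x c).Nonempty := by
  rcases Set.eq_empty_or_nonempty (hw_placesOver x c) with h | h
  · have h1 := hw_sum_ord_placesOver x hx c
    rw [h, finsum_mem_empty] at h1
    have h2 : 0 < Module.finrank K⟮x⟯ F := s52u_finrank_pos
    omega
  · exact h

/-- the fibre over `∞` is not empty. -/
theorem s52u_placesAtInfty_nonempty (hx : Transcendental K x) :
    (hw_placesAtInfty (K := K) x).Nonempty := by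
  rcases Set.eq_empty_or_nonempty (hw_placesAtInfty (K := K) x) with h | h
  · have h1 := hw_sum_ord_placesAtInfty x hx
    rw [h, finsum_mem_empty] at h1
    have h2 : 0 < Module.finrank K⟮x⟯ F := s52u_finrank_pos
    omega
  · exact h

/-- the fibre over `c` has at most `[F : K(x)]` places. -/
theorem s52u_ncard_placesOver_le (hx : Transcendental K x) (c : K) :
    (hw_placesOver x c).ncard ≤ Module.finrank K⟮x⟯ F := by
  classical
  have hsum := hw_sum_fiber_toFinset hx c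
  have h1 : ((hw_finite_fiber hx c).toFinset.card : ℤ) ≤
      ∑ w ∈ (hw_finite_fiber hx c).toFinset, w.ord (x - algebraMap K F c) := by
    rw [Finset.card_eq_sum_ones, Nat.cast_sum]
    apply Finset.sum_le_sum
    intro w hw
    have : 0 < w.ord (x - algebraMap K F c) := by simpa using hw
    push_cast
    omega
  rw [hsum] at h1
  have h2 : (hw_placesOver x c).ncard = (hw_finite_fiber hx c).toFinset.card := by
    rw [hw_placesOver, Set.ncard_eq_toFinset_card _ (hw_finite_fiber hx c)]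
  rw [h2]
  exact_mod_cast h1

theorem s52u_stab_of_mem {v : Place K F} {σ : F ≃ₐ[K⟮x⟯] F}
    (h : σ • v.toValuationSubring = v.toValuationSubring) :
    ∀ f ∈ v.toValuationSubring, σ f ∈ v.toValuationSubring := by
  intro f hf
  have h1 := ValuationSubring.smul_mem_pointwise_smul σ f _ hf
  rw [h] at h1
  exact h1

/-- **`e · #{places over c} ≥ [F : K(x)]`.** -/
theorem s52u_card_placesOver (hx : Transcendental K x) (c : K) (e : ℕ) (he0 : 0 < e)
    (he : ∀ v ∈ hw_placesOver x c, ∀ σ : F ≃ₐ[K⟮x⟯] F,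
      (∀ f ∈ v.toValuationSubring, σ f ∈ v.toValuationSubring) → σ ^ e = 1) :
    Module.finrank K⟮x⟯ F ≤ e * (hw_placesOver x c).ncard := by
  obtain ⟨v, hv⟩ := s52u_placesOver_nonempty hx c
  have h1 := s52u_card_mul_ncard (hw_placesOver x c) (hw_finite_placesOver x hx c)
    (fun σ w hw => s52u_smul_mem_placesOver hx σ w c hw) v hv
  have h2 := s52u_stab_card_dvd x v e (fun σ hσ => he v hv σ (s52u_stab_of_mem hσ))
  exact h1.trans (Nat.mul_le_mul_right _ (Nat.le_of_dvd he0 h2))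

/-- **`e · #{places over ∞} ≥ [F : K(x)]`.** -/
theorem s52u_card_placesAtInfty (hx : Transcendental K x) (e : ℕ) (he0 : 0 < e)
    (he : ∀ v ∈ hw_placesAtInfty (K := K) x, ∀ σ : F ≃ₐ[K⟮x⟯] F,
      (∀ f ∈ v.toValuationSubring, σ f ∈ v.toValuationSubring) → σ ^ e = 1) :
    Module.finrank K⟮x⟯ F ≤ e * (hw_placesAtInfty (K := K) x).ncard := by
  obtain ⟨v, hv⟩ := s52u_placesAtInfty_nonempty hx
  have h1 := s52u_card_mul_ncard (hw_placesAtInfty (K := K) x) (hw_finite_placesAtInfty x hx)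
    (fun σ w hw => s52u_smul_mem_placesAtInfty hx σ w hw) v hv
  have h2 := s52u_stab_card_dvd x v e (fun σ hσ => he v hv σ (s52u_stab_of_mem hσ))
  exact h1.trans (Nat.mul_le_mul_right _ (Nat.le_of_dvd he0 h2))

/-- **unramified fibres**: trivial stabilisers `⟹` `[F : K(x)]` places. -/
theorem s52u_ncard_placesOver_eq (hx : Transcendental K x) (c : K)
    (he : ∀ v ∈ hw_placesOver x c, ∀ σ : F ≃ₐ[K⟮x⟯] F,
      (∀ f ∈ v.toValuationSubring, σ f ∈ v.toValuationSubring) → σ = 1) :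
    (hw_placesOver x c).ncard = Module.finrank K⟮x⟯ F := by
  have h1 := s52u_card_placesOver hx c 1 one_pos (fun v hv σ hσ => by rw [pow_one]; exact he v hv σ hσ)
  have h2 := s52u_ncard_placesOver_le hx c
  omega

/-- **[HUR-GAL], general exponents**: `1/e₀ + 1/e₁ + 1/e∞ > 1`. -/
theorem s52u_main_gen (x : F) (hx : Transcendental K x) [FiniteDimensional K⟮x⟯ F]
    [IsGalois K⟮x⟯ F] [HasCanonicalDivisor (K := K) (F := F)] (c₀ c₁ : K) (hc : c₀ ≠ c₁)
    (e₀ e₁ e : ℕ) (he₀ : 0 < e₀) (he₁ : 0 < e₁) (he : 0 < e)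
    (hsum : e₀ * e₁ * e < e₁ * e + e₀ * e + e₀ * e₁)
    (hgood : ∀ c : K, c ≠ c₀ → c ≠ c₁ → ∀ v ∈ hw_placesOver x c, ∀ σ : F ≃ₐ[K⟮x⟯] F,
      (∀ f ∈ v.toValuationSubring, σ f ∈ v.toValuationSubring) → σ = 1)
    (h0 : ∀ v ∈ hw_placesOver x c₀, ∀ σ : F ≃ₐ[K⟮x⟯] F,
      (∀ f ∈ v.toValuationSubring, σ f ∈ v.toValuationSubring) → σ ^ e₀ = 1)
    (h1 : ∀ v ∈ hw_placesOver x c₁, ∀ σ : F ≃ₐ[K⟮x⟯] F,
      (∀ f ∈ v.toValuationSubring, σ f ∈ v.toValuationSubring) → σ ^ e₁ = 1)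
    (hinf : ∀ v ∈ hw_placesAtInfty (K := K) x, ∀ σ : F ≃ₐ[K⟮x⟯] F,
      (∀ f ∈ v.toValuationSubring, σ f ∈ v.toValuationSubring) → σ ^ e = 1) :
    genus K F = 0 := by
  classical
  have hn : 0 < Module.finrank K⟮x⟯ F := s52u_finrank_pos
  have b0 := s52u_card_placesOver hx c₀ e₀ he₀ h0
  have b1 := s52u_card_placesOver hx c₁ e₁ he₁ h1
  have binf := s52u_card_placesAtInfty hx e he hinf
  refine s52r_genus_zero_of_neg x hx {c₀, c₁} (fun c hcS => ?_) ?_
  · rw [Finset.mem_insert, Finset.mem_singleton, not_or] at hcS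
    exact s52u_ncard_placesOver_eq hx c (hgood c hcS.1 hcS.2)
  · rw [Finset.sum_pair hc]
    set n := Module.finrank K⟮x⟯ F with hndef
    set N₀ := (hw_placesOver x c₀).ncard
    set N₁ := (hw_placesOver x c₁).ncard
    set N := (hw_placesAtInfty (K := K) x).ncard
    -- `n < N₀ + N₁ + N`
    have key : n < N₀ + N₁ + N := by
      by_contra hcon
      push Not at hcon
      have i0 : e₁ * e * n ≤ e₁ * e * (e₀ * N₀) := Nat.mul_le_mul_left _ b0
      have i1 : e₀ * e * n ≤ e₀ * e * (e₁ * N₁) := Nat.mul_le_mul_left _ b1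
      have i2 : e₀ * e₁ * n ≤ e₀ * e₁ * (e * N) := Nat.mul_le_mul_left _ binf
      have i3 : e₀ * e₁ * e * (N₀ + N₁ + N) ≤ e₀ * e₁ * e * n := Nat.mul_le_mul_left _ hcon
      have i4 : (e₁ * e + e₀ * e + e₀ * e₁) * n ≤ e₀ * e₁ * e * n := by nlinarith
      have i5 : e₀ * e₁ * e * n < (e₁ * e + e₀ * e + e₀ * e₁) * n :=
        Nat.mul_lt_mul_of_pos_right hsum hn
      omega
    omega

/-- **[HUR-GAL]**: exponents `3, 2, 5`. -/
theorem s52u_main (x : F) (hx : Transcendental K x) [FiniteDimensional K⟮x⟯ F]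
    [IsGalois K⟮x⟯ F] [HasCanonicalDivisor (K := K) (F := F)] (c₀ c₁ : K) (hc : c₀ ≠ c₁)
    (hgood : ∀ c : K, c ≠ c₀ → c ≠ c₁ → ∀ v ∈ hw_placesOver x c, ∀ σ : F ≃ₐ[K⟮x⟯] F,
      (∀ f ∈ v.toValuationSubring, σ f ∈ v.toValuationSubring) → σ = 1)
    (h0 : ∀ v ∈ hw_placesOver x c₀, ∀ σ : F ≃ₐ[K⟮x⟯] F,
      (∀ f ∈ v.toValuationSubring, σ f ∈ v.toValuationSubring) → σ ^ 3 = 1)
    (h1 : ∀ v ∈ hw_placesOver x c₁, ∀ σ : F ≃ₐ[K⟮x⟯] F,
      (∀ f ∈ v.toValuationSubring, σ f ∈ v.toValuationSubring) → σ ^ 2 = 1)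
    (hinf : ∀ v ∈ hw_placesAtInfty (K := K) x, ∀ σ : F ≃ₐ[K⟮x⟯] F,
      (∀ f ∈ v.toValuationSubring, σ f ∈ v.toValuationSubring) → σ ^ 5 = 1) :
    genus K F = 0 :=
  s52u_main_gen x hx c₀ c₁ hc 3 2 5 (by norm_num) (by norm_num) (by norm_num) (by norm_num)
    hgood h0 h1 hinf

end Main

section MainOrd

variable [IsAlgClosed K] [CharZero K] {x : F} [FiniteDimensional K⟮x⟯ F] [IsGalois K⟮x⟯ F]

/-- order of the stabiliser from a bound on the orders of its elements. -/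
theorem s52u_stab_card_le (x : F) [FiniteDimensional K⟮x⟯ F] (v : Place K F) (e : ℕ)
    (he : ∀ σ : F ≃ₐ[K⟮x⟯] F, σ • v.toValuationSubring = v.toValuationSubring → orderOf σ ≤ e) :
    Nat.card ↥(MulAction.stabilizer (F ≃ₐ[K⟮x⟯] F) v.toValuationSubring) ≤ e := by
  have := s52u_stab_isCyclic x v
  obtain ⟨g, hg⟩ := IsCyclic.exists_generator
    (α := ↥(MulAction.stabilizer (F ≃ₐ[K⟮x⟯] F) v.toValuationSubring))
  rw [← orderOf_eq_card_of_forall_mem_zpowers hg, ← Subgroup.orderOf_coe]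
  exact he g.1 (MulAction.mem_stabilizer_iff.mp g.2)

/-- **[HUR-GAL], bounds on the orders**: every `σ` stabilising a place over `c₀`, `c₁`, `∞` has
order `≤ e₀, e₁, e` with `1/e₀ + 1/e₁ + 1/e > 1`. -/
theorem s52u_main_ord (x : F) (hx : Transcendental K x) [FiniteDimensional K⟮x⟯ F]
    [IsGalois K⟮x⟯ F] [HasCanonicalDivisor (K := K) (F := F)] (c₀ c₁ : K) (hc : c₀ ≠ c₁)
    (e₀ e₁ e : ℕ) (hsum : e₀ * e₁ * e < e₁ * e + e₀ * e + e₀ * e₁)
    (hgood : ∀ c : K, c ≠ c₀ → c ≠ c₁ → ∀ v ∈ hw_placesOver x c, ∀ σ : F ≃ₐ[K⟮x⟯] F,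
      (∀ f ∈ v.toValuationSubring, σ f ∈ v.toValuationSubring) → σ = 1)
    (h0 : ∀ v ∈ hw_placesOver x c₀, ∀ σ : F ≃ₐ[K⟮x⟯] F,
      (∀ f ∈ v.toValuationSubring, σ f ∈ v.toValuationSubring) → orderOf σ ≤ e₀)
    (h1 : ∀ v ∈ hw_placesOver x c₁, ∀ σ : F ≃ₐ[K⟮x⟯] F,
      (∀ f ∈ v.toValuationSubring, σ f ∈ v.toValuationSubring) → orderOf σ ≤ e₁)
    (hinf : ∀ v ∈ hw_placesAtInfty (K := K) x, ∀ σ : F ≃ₐ[K⟮x⟯] F,
      (∀ f ∈ v.toValuationSubring, σ f ∈ v.toValuationSubring) → orderOf σ ≤ e) :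
    genus K F = 0 := by
  classical
  have hn : 0 < Module.finrank K⟮x⟯ F := s52u_finrank_pos
  have b0 : Module.finrank K⟮x⟯ F ≤ e₀ * (hw_placesOver x c₀).ncard := by
    obtain ⟨v, hv⟩ := s52u_placesOver_nonempty hx c₀
    have h1' := s52u_card_mul_ncard (hw_placesOver x c₀) (hw_finite_placesOver x hx c₀)
      (fun σ w hw => s52u_smul_mem_placesOver hx σ w c₀ hw) v hv
    exact h1'.trans (Nat.mul_le_mul_right _
      (s52u_stab_card_le x v e₀ (fun σ hσ => h0 v hv σ (s52u_stab_of_mem hσ))))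
  have b1 : Module.finrank K⟮x⟯ F ≤ e₁ * (hw_placesOver x c₁).ncard := by
    obtain ⟨v, hv⟩ := s52u_placesOver_nonempty hx c₁
    have h1' := s52u_card_mul_ncard (hw_placesOver x c₁) (hw_finite_placesOver x hx c₁)
      (fun σ w hw => s52u_smul_mem_placesOver hx σ w c₁ hw) v hv
    exact h1'.trans (Nat.mul_le_mul_right _
      (s52u_stab_card_le x v e₁ (fun σ hσ => h1 v hv σ (s52u_stab_of_mem hσ))))
  have binf : Module.finrank K⟮x⟯ F ≤ e * (hw_placesAtInfty (K := K) x).ncard := by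
    obtain ⟨v, hv⟩ := s52u_placesAtInfty_nonempty hx
    have h1' := s52u_card_mul_ncard (hw_placesAtInfty (K := K) x) (hw_finite_placesAtInfty x hx)
      (fun σ w hw => s52u_smul_mem_placesAtInfty hx σ w hw) v hv
    exact h1'.trans (Nat.mul_le_mul_right _
      (s52u_stab_card_le x v e (fun σ hσ => hinf v hv σ (s52u_stab_of_mem hσ))))
  refine s52r_genus_zero_of_neg x hx {c₀, c₁} (fun c hcS => ?_) ?_
  · rw [Finset.mem_insert, Finset.mem_singleton, not_or] at hcS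
    exact s52u_ncard_placesOver_eq hx c (hgood c hcS.1 hcS.2)
  · rw [Finset.sum_pair hc]
    set n := Module.finrank K⟮x⟯ F with hndef
    set N₀ := (hw_placesOver x c₀).ncard
    set N₁ := (hw_placesOver x c₁).ncard
    set N := (hw_placesAtInfty (K := K) x).ncard
    have key : n < N₀ + N₁ + N := by
      by_contra hcon
      push Not at hcon
      have i0 : e₁ * e * n ≤ e₁ * e * (e₀ * N₀) := Nat.mul_le_mul_left _ b0
      have i1 : e₀ * e * n ≤ e₀ * e * (e₁ * N₁) := Nat.mul_le_mul_left _ b1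
      have i2 : e₀ * e₁ * n ≤ e₀ * e₁ * (e * N) := Nat.mul_le_mul_left _ binf
      have i3 : e₀ * e₁ * e * (N₀ + N₁ + N) ≤ e₀ * e₁ * e * n := Nat.mul_le_mul_left _ hcon
      have i4 : (e₁ * e + e₀ * e + e₀ * e₁) * n ≤ e₀ * e₁ * e * n := by nlinarith
      have i5 : e₀ * e₁ * e * n < (e₁ * e + e₀ * e + e₀ * e₁) * n :=
        Nat.mul_lt_mul_of_pos_right hsum hn
      omega
    omega

end MainOrd

end Fermat.Agent.S52
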