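/-
S52, node [J3] (helper27).  Prefix `s52u_`.  Part 4 of [HUR-GAL]: `e = |Stab|` AND THE CUSP OF WIDTH 3.

`K` algebraically closed of characteristic `0`, `F / K(x)` finite Galois with group `G`.

* `s52u_pow_ord_eq_one`    : `σ` stabilising a place `v` over `x = c` has `σ ^ e = 1`, `e = ord_v (x - c)`
                             (`σ` fixes `x - c = unit · π ^ e`, so the tame character has `χ(σ) ^ e = 1`);
* `s52u_ord_eq_card_stab`  : `ord_v (x - c) = |Stab_G v|`
                             (`n = Σ e_w ≥ Σ |D_w|` and `|D_w| · N ≥ n` for every `w` of the fibre);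
* `s52u_j3`                : if no element of a stabiliser of a place over `x = c₁ ≠ 0` has order
                             divisible by `3`, then `(h + 27)(h + 3)³ (x - c₁) = 1728 x h` has no solution
                             `h ∈ F`: at a pole `v` of `h` the function `J = x / (x - c₁)` has a pole of
                             order `3 · (-ord_v h)` (the cusp of width `3` of `X₀(3)`), and this order is
                             `ord_v (x - c₁) = |Stab v|`, the order of a generator of the cyclic stabiliser;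
* `s52u_j3_45`             : the same when every such `σ` has `σ ^ 4 = 1 ∨ σ ^ 5 = 1`.
-/
import Mathlib
import Fermat.Agent.S52.HUR.Main

set_option autoImplicit false
set_option linter.unusedSectionVars false

noncomputable section

namespace Fermat.Agent.S52

open AlgebraicCurve IntermediateField IsLocalRing
open Fermat.Agent.S24
open scoped Pointwise

universe u v
variable {K : Type u} {F : Type v} [Field K] [Field F] [Algebra K F]

section OrdStab

variable [IsAlgClosed K] [CharZero K] {x : F} [FiniteDimensional K⟮x⟯ F]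

/-- **`σ ^ e = 1`** for `σ` in the stabiliser of a place over `x = c`, `e = ord_v (x - c)`. -/
theorem s52u_pow_ord_eq_one (hx : Transcendental K x) (c : K) (v : Place K F)
    (hv : 0 < v.ord (x - algebraMap K F c)) (σ : F ≃ₐ[K⟮x⟯] F)
    (hσ : σ • v.toValuationSubring = v.toValuationSubring) :
    σ ^ (v.ord (x - algebraMap K F c)).toNat = 1 := by
  obtain ⟨π, hπ⟩ := IsDiscreteValuationRing.exists_irreducible ↥v.toValuationSubring
  have hf0 : x - algebraMap K F c ≠ 0 := s52u_sub_ne_zero hx c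
  obtain ⟨w, hw⟩ := v.exists_unit_mul_zpow hf0 hπ
  obtain ⟨e, he⟩ : ∃ e : ℕ, v.ord (x - algebraMap K F c) = (e : ℤ) :=
    ⟨(v.ord (x - algebraMap K F c)).toNat, by omega⟩
  rw [he, zpow_natCast] at hw
  rw [he, Int.toNat_natCast]
  have hσmem : σ ∈ MulAction.stabilizer (F ≃ₐ[K⟮x⟯] F) v.toValuationSubring :=
    MulAction.mem_stabilizer_iff.mpr hσ
  have hσf : σ (x - algebraMap K F c) = x - algebraMap K F c := by
    rw [map_sub, s52u_fix_x, s52u_fix_const]
  have hspec := s52u_mult_spec v hπ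
    (⟨σ, hσmem⟩ : ↥(MulAction.stabilizer (F ≃ₐ[K⟮x⟯] F) v.toValuationSubring))
  have hspecF : σ (π : F) = (π : F) *
      ((s52u_mult v hπ (⟨σ, hσmem⟩ : ↥(MulAction.stabilizer (F ≃ₐ[K⟮x⟯] F)
        v.toValuationSubring)) : ↥v.toValuationSubring) : F) :=
    congrArg Subtype.val hspec
  set m : ↥v.toValuationSubring := s52u_mult v hπ
    (⟨σ, hσmem⟩ : ↥(MulAction.stabilizer (F ≃ₐ[K⟮x⟯] F) v.toValuationSubring)) with hm
  have hπF : (π : F) ≠ 0 := by
    simpa [ne_eq, ZeroMemClass.coe_eq_zero] using hπ.ne_zero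
  have h1 : (((w : ↥v.toValuationSubring) : F)) * (π : F) ^ e =
      (σ ((w : ↥v.toValuationSubring) : F) * (m : F) ^ e) * (π : F) ^ e := by
    calc (((w : ↥v.toValuationSubring) : F)) * (π : F) ^ e
        = x - algebraMap K F c := hw.symm
      _ = σ (x - algebraMap K F c) := hσf.symm
      _ = σ ((((w : ↥v.toValuationSubring) : F)) * (π : F) ^ e) := by rw [← hw]
      _ = σ ((w : ↥v.toValuationSubring) : F) * (σ (π : F)) ^ e := by rw [map_mul, map_pow]
      _ = _ := by rw [hspecF, mul_pow]; ring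
  have h2 := mul_right_cancel₀ (pow_ne_zero e hπF) h1
  have h3 : (w : ↥v.toValuationSubring) =
      s52u_res v σ hσ (w : ↥v.toValuationSubring) * m ^ e := by
    apply Subtype.ext
    rw [h2]
    rfl
  have h4 := congrArg (IsLocalRing.residue ↥v.toValuationSubring) h3
  rw [map_mul, map_pow] at h4
  have h5 : IsLocalRing.residue ↥v.toValuationSubring (s52u_res v σ hσ (w : ↥v.toValuationSubring)) =
      IsLocalRing.residue ↥v.toValuationSubring (w : ↥v.toValuationSubring) := by
    have := s52u_res_sub_mem v σ hσ (w : ↥v.toValuationSubring)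
    rwa [← IsLocalRing.residue_eq_zero_iff, map_sub, sub_eq_zero] at this
  rw [h5] at h4
  have hw0 : IsLocalRing.residue ↥v.toValuationSubring (w : ↥v.toValuationSubring) ≠ 0 := by
    rw [Ne, IsLocalRing.residue_eq_zero_iff]
    exact fun h => (IsLocalRing.mem_maximalIdeal _).mp h w.isUnit
  have h6 : (IsLocalRing.residue ↥v.toValuationSubring m) ^ e = 1 := by
    have h7 : IsLocalRing.residue ↥v.toValuationSubring (w : ↥v.toValuationSubring) * 1 =
        IsLocalRing.residue ↥v.toValuationSubring (w : ↥v.toValuationSubring) *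
          (IsLocalRing.residue ↥v.toValuationSubring m) ^ e := by
      rw [mul_one]
      exact h4
    exact (mul_left_cancel₀ hw0 h7).symm
  have h8 : s52u_chi v hπ ((⟨σ, hσmem⟩ :
      ↥(MulAction.stabilizer (F ≃ₐ[K⟮x⟯] F) v.toValuationSubring)) ^ e) = 1 := by
    rw [map_pow]
    exact h6
  have h9 := s52u_chi_injective v hπ (h8.trans (map_one _).symm)
  have h10 := congrArg Subtype.val h9
  rw [Subgroup.coe_pow] at h10
  exact h10

/-- `|Stab v|` divides `ord_v (x - c)`. -/
theorem s52u_card_stab_dvd_ord (hx : Transcendental K x) (c : K) (v : Place K F)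
    (hv : 0 < v.ord (x - algebraMap K F c)) :
    Nat.card ↥(MulAction.stabilizer (F ≃ₐ[K⟮x⟯] F) v.toValuationSubring) ∣
      (v.ord (x - algebraMap K F c)).toNat :=
  s52u_stab_card_dvd x v _ (fun σ hσ => s52u_pow_ord_eq_one hx c v hv σ hσ)

variable [IsGalois K⟮x⟯ F]

/-- **`ord_v (x - c) = |Stab_G v|`** for a place over `x = c`. -/
theorem s52u_ord_eq_card_stab (hx : Transcendental K x) (c : K) (v : Place K F)
    (hv : v ∈ hw_placesOver x c) :
    v.ord (x - algebraMap K F c) =
      (Nat.card ↥(MulAction.stabilizer (F ≃ₐ[K⟮x⟯] F) v.toValuationSubring) : ℤ) := by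
  classical
  set S := (hw_finite_fiber hx c).toFinset with hS
  have hmemS : ∀ w : Place K F, w ∈ S ↔ 0 < w.ord (x - algebraMap K F c) := by
    intro w
    simp [hS]
  have hsum := hw_sum_fiber_toFinset hx c
  have hN : (hw_placesOver x c).ncard = S.card := by
    rw [hw_placesOver, Set.ncard_eq_toFinset_card _ (hw_finite_fiber hx c)]
  -- termwise: `d w ≤ e w`
  have hle : ∀ w ∈ S, (0 : ℤ) ≤ w.ord (x - algebraMap K F c) -
      (Nat.card ↥(MulAction.stabilizer (F ≃ₐ[K⟮x⟯] F) w.toValuationSubring) : ℤ) := by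
    intro w hw
    have hw' := (hmemS w).mp hw
    have h1 := s52u_card_stab_dvd_ord hx c w hw'
    have h2 : 0 < (w.ord (x - algebraMap K F c)).toNat := by omega
    have h3 := Nat.le_of_dvd h2 h1
    have h4 : ((w.ord (x - algebraMap K F c)).toNat : ℤ) = w.ord (x - algebraMap K F c) :=
      Int.toNat_of_nonneg hw'.le
    have h5 : (Nat.card ↥(MulAction.stabilizer (F ≃ₐ[K⟮x⟯] F) w.toValuationSubring) : ℤ) ≤
        ((w.ord (x - algebraMap K F c)).toNat : ℤ) := by exact_mod_cast h3
    omega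
  -- termwise: `n ≤ d w * N`
  have hge : ∀ w ∈ S, (Module.finrank K⟮x⟯ F : ℤ) ≤
      (Nat.card ↥(MulAction.stabilizer (F ≃ₐ[K⟮x⟯] F) w.toValuationSubring) : ℤ) * S.card := by
    intro w hw
    have hw' : w ∈ hw_placesOver x c := (hmemS w).mp hw
    have h1 := s52u_card_mul_ncard (hw_placesOver x c) (hw_finite_placesOver x hx c)
      (fun σ w' hw'' => s52u_smul_mem_placesOver hx σ w' c hw'') w hw'
    rw [hN] at h1
    exact_mod_cast h1
  have hvS : v ∈ S := (hmemS v).mpr hv
  have hcard : 0 < S.card := Finset.card_pos.mpr ⟨v, hvS⟩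
  -- the sum of the differences vanishes
  have hsum0 : ∑ w ∈ S, (w.ord (x - algebraMap K F c) -
      (Nat.card ↥(MulAction.stabilizer (F ≃ₐ[K⟮x⟯] F) w.toValuationSubring) : ℤ)) = 0 := by
    apply le_antisymm
    · have h1 : ∑ w ∈ S, (Module.finrank K⟮x⟯ F : ℤ) ≤
          ∑ w ∈ S, (Nat.card ↥(MulAction.stabilizer (F ≃ₐ[K⟮x⟯] F) w.toValuationSubring) : ℤ) *
            S.card := Finset.sum_le_sum hge
      rw [Finset.sum_const, nsmul_eq_mul, ← Finset.sum_mul] at h1
      rw [Finset.sum_sub_distrib, hsum]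
      have h2 : (0 : ℤ) < (S.card : ℤ) := by exact_mod_cast hcard
      have h3 : (Module.finrank K⟮x⟯ F : ℤ) * S.card ≤
          (∑ w ∈ S, (Nat.card ↥(MulAction.stabilizer (F ≃ₐ[K⟮x⟯] F) w.toValuationSubring) : ℤ)) *
            S.card := by linarith
      have h4 := le_of_mul_le_mul_right h3 h2
      linarith
    · exact Finset.sum_nonneg hle
  have h0 := (Finset.sum_eq_zero_iff_of_nonneg hle).mp hsum0 v hvS
  linarith

end OrdStab

section J3

variable [IsAlgClosed K] [CharZero K]

/-- a transcendental element has a pole. -/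
theorem s52u_exists_pole (x : F) [FiniteDimensional K⟮x⟯ F] {h : F} (hh : Transcendental K h) :
    ∃ v : Place K F, v.ord h < 0 := by
  have hfd := hw_finiteDimensional_adjoin x hh
  obtain ⟨s, hs, hsum⟩ := hw_sum_ord_poles hh
  have hpos : 0 < Module.finrank K⟮h⟯ F := Module.finrank_pos
  rcases s.eq_empty_or_nonempty with h0 | ⟨v, hv⟩
  · rw [h0, Finset.sum_empty] at hsum
    omega
  · exact ⟨v, (hs v).mp hv⟩

/-- **[J3]** no point of `X₀(3)` over `F` above `J = x / (x - c₁)`, if the stabilisers of the places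
over `x = c₁` contain no element of order divisible by `3`. -/
theorem s52u_j3 (x : F) (hx : Transcendental K x) [FiniteDimensional K⟮x⟯ F] [IsGalois K⟮x⟯ F]
    (c₁ : K) (hc₁ : c₁ ≠ 0)
    (h1 : ∀ v ∈ hw_placesOver x c₁, ∀ σ : F ≃ₐ[K⟮x⟯] F,
      (∀ f ∈ v.toValuationSubring, σ f ∈ v.toValuationSubring) → ¬ 3 ∣ orderOf σ)
    (h : F) :
    (h + 27) * (h + 3) ^ 3 * (x - algebraMap K F c₁) ≠ 1728 * x * h := by
  intro heq
  have e27 : (27 : F) = algebraMap K F 27 := (map_ofNat (algebraMap K F) 27).symm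
  have e3 : (3 : F) = algebraMap K F 3 := (map_ofNat (algebraMap K F) 3).symm
  have e1728 : (1728 : F) = algebraMap K F 1728 := (map_ofNat (algebraMap K F) 1728).symm
  rcases hw_const_or_transcendental (K := K) h with ⟨a, rfl⟩ | hht
  · -- `h` constant
    have h2 : algebraMap K F ((a + 27) * (a + 3) ^ 3 - 1728 * a) * x =
        algebraMap K F ((a + 27) * (a + 3) ^ 3 * c₁) := by
      simp only [map_sub, map_mul, map_add, map_pow, map_ofNat]
      linear_combination heq
    by_cases h3 : (a + 27) * (a + 3) ^ 3 - 1728 * a = 0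
    · rw [h3, map_zero, zero_mul] at h2
      have h4 : (a + 27) * (a + 3) ^ 3 * c₁ = 0 :=
        (map_eq_zero (algebraMap K F)).mp h2.symm
      have h5 : (a + 27) * (a + 3) ^ 3 = 0 := by
        rcases mul_eq_zero.mp h4 with h5 | h5
        · exact h5
        · exact absurd h5 hc₁
      have h6 : (1728 : K) * a = 0 := by rw [h5, zero_sub, neg_eq_zero] at h3; exact h3
      have h7 : a = 0 := by
        rcases mul_eq_zero.mp h6 with h7 | h7
        · norm_num at h7
        · exact h7
      rw [h7] at h5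
      norm_num at h5
    · apply hx
      have h4 : x = algebraMap K F (((a + 27) * (a + 3) ^ 3 * c₁) /
          ((a + 27) * (a + 3) ^ 3 - 1728 * a)) := by
        have h5 : algebraMap K F ((a + 27) * (a + 3) ^ 3 - 1728 * a) ≠ 0 := by
          rw [Ne, map_eq_zero]
          exact h3
        rw [map_div₀, eq_div_iff h5, mul_comm]
        exact h2
      rw [h4]
      exact isAlgebraic_algebraMap _
  · -- `h` transcendental: look at a pole
    obtain ⟨v, hv⟩ := s52u_exists_pole x hht
    have hh0 : h ≠ 0 := by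
      rintro rfl
      simp at hv
    have hx0 : x ≠ 0 := by
      rintro rfl
      exact hx isAlgebraic_zero
    have hf0 : x - algebraMap K F c₁ ≠ 0 := s52u_sub_ne_zero hx c₁
    have h27 : (27 : F) ≠ 0 := by
      rw [e27, Ne, map_eq_zero]
      norm_num
    have h3' : (3 : F) ≠ 0 := by
      rw [e3, Ne, map_eq_zero]
      norm_num
    have h1728 : (1728 : F) ≠ 0 := by
      rw [e1728, Ne, map_eq_zero]
      norm_num
    have o27 : v.ord (27 : F) = 0 := by rw [e27]; exact hw_ord_algebraMap v 27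
    have o3 : v.ord (3 : F) = 0 := by rw [e3]; exact hw_ord_algebraMap v 3
    have o1728 : v.ord (1728 : F) = 0 := by rw [e1728]; exact hw_ord_algebraMap v 1728
    have oa : v.ord (h + 27) = v.ord h := hw_ord_add_eq_of_lt v hh0 h27 (by rw [o27]; exact hv)
    have ob : v.ord (h + 3) = v.ord h := hw_ord_add_eq_of_lt v hh0 h3' (by rw [o3]; exact hv)
    have ha0 : h + 27 ≠ 0 := by
      intro h0
      rw [h0, Place.ord_zero] at oa
      omega
    have hb0 : h + 3 ≠ 0 := by
      intro h0
      rw [h0, Place.ord_zero] at ob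
      omega
    have hb3 : (h + 3) ^ 3 ≠ 0 := pow_ne_zero 3 hb0
    have ob3 : v.ord ((h + 3) ^ 3) = 3 * v.ord h := by
      have := v.ord_zpow (h + 3) 3
      rw [ob] at this
      exact_mod_cast this
    have hL := congrArg v.ord heq
    rw [v.ord_mul (mul_ne_zero ha0 hb3) hf0, v.ord_mul ha0 hb3, oa, ob3,
      v.ord_mul (mul_ne_zero h1728 hx0) hh0, v.ord_mul h1728 hx0, o1728] at hL
    -- `ord (x - c₁) = ord x - 3 * ord h`
    have hc0 : algebraMap K F c₁ ≠ 0 := by simpa using hc₁
    have oc : v.ord (algebraMap K F c₁) = 0 := hw_ord_algebraMap v c₁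
    have onc : v.ord (-algebraMap K F c₁) = 0 := by rw [hw_ord_neg]; exact oc
    have hxnn : 0 ≤ v.ord x := by
      by_contra hneg
      push Not at hneg
      have h4 : v.ord (x + -algebraMap K F c₁) = v.ord x :=
        hw_ord_add_eq_of_lt v hx0 (neg_ne_zero.mpr hc0) (by rw [onc]; exact hneg)
      rw [← sub_eq_add_neg] at h4
      omega
    have hpos : 0 < v.ord (x - algebraMap K F c₁) := by omega
    have hx00 : v.ord x = 0 := by
      have h4 : v.ord (algebraMap K F c₁ + (x - algebraMap K F c₁)) = v.ord (algebraMap K F c₁) :=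
        hw_ord_add_eq_of_lt v hc0 hf0 (by rw [oc]; exact hpos)
      rw [add_sub_cancel, oc] at h4
      exact h4
    have hvm : v ∈ hw_placesOver x c₁ := hpos
    have hcard := s52u_ord_eq_card_stab hx c₁ v hvm
    -- a generator of the stabiliser
    have hcyc := s52u_stab_isCyclic x v
    obtain ⟨g, hg⟩ := IsCyclic.exists_generator
      (α := ↥(MulAction.stabilizer (F ≃ₐ[K⟮x⟯] F) v.toValuationSubring))
    have hord : orderOf g =
        Nat.card ↥(MulAction.stabilizer (F ≃ₐ[K⟮x⟯] F) v.toValuationSubring) :=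
      orderOf_eq_card_of_forall_mem_zpowers hg
    have hord' : orderOf (g : F ≃ₐ[K⟮x⟯] F) = orderOf g := Subgroup.orderOf_coe g
    apply h1 v hvm g.1 (s52u_stab_of_mem (MulAction.mem_stabilizer_iff.mp g.2))
    rw [hord', hord]
    have h5 : (Nat.card ↥(MulAction.stabilizer (F ≃ₐ[K⟮x⟯] F) v.toValuationSubring) : ℤ) =
        3 * (-v.ord h) := by
      rw [← hcard]
      omega
    have h6 : (3 : ℤ) ∣
        (Nat.card ↥(MulAction.stabilizer (F ≃ₐ[K⟮x⟯] F) v.toValuationSubring) : ℤ) :=
      ⟨_, h5⟩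
    exact_mod_cast h6

/-- **[J3]**, in the form delivered by the local analysis at `j = ∞`: `σ ^ 4 = 1 ∨ σ ^ 5 = 1`. -/
theorem s52u_j3_45 (x : F) (hx : Transcendental K x) [FiniteDimensional K⟮x⟯ F] [IsGalois K⟮x⟯ F]
    (c₁ : K) (hc₁ : c₁ ≠ 0)
    (h1 : ∀ v ∈ hw_placesOver x c₁, ∀ σ : F ≃ₐ[K⟮x⟯] F,
      (∀ f ∈ v.toValuationSubring, σ f ∈ v.toValuationSubring) → σ ^ 4 = 1 ∨ σ ^ 5 = 1)
    (h : F) :
    (h + 27) * (h + 3) ^ 3 * (x - algebraMap K F c₁) ≠ 1728 * x * h := by
  refine s52u_j3 x hx c₁ hc₁ (fun v hv σ hσ h3 => ?_) h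
  rcases h1 v hv σ hσ with h4 | h5
  · have := h3.trans (orderOf_dvd_of_pow_eq_one h4)
    omega
  · have := h3.trans (orderOf_dvd_of_pow_eq_one h5)
    omega

/-- **[J3]**, fraction form: `J = N / D` with `N (x - c₁) = D x`. -/
theorem s52u_j3_frac (x : F) (hx : Transcendental K x) [FiniteDimensional K⟮x⟯ F]
    [IsGalois K⟮x⟯ F] (c₁ : K) (hc₁ : c₁ ≠ 0)
    (h1 : ∀ v ∈ hw_placesOver x c₁, ∀ σ : F ≃ₐ[K⟮x⟯] F,
      (∀ f ∈ v.toValuationSubring, σ f ∈ v.toValuationSubring) → σ ^ 4 = 1 ∨ σ ^ 5 = 1)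
    (N D : F) (hD : D ≠ 0) (hND : N * (x - algebraMap K F c₁) = D * x) (h : F) :
    (h + 27) * (h + 3) ^ 3 * D ≠ 1728 * N * h := by
  intro heq
  apply s52u_j3_45 x hx c₁ hc₁ h1 h
  apply mul_right_cancel₀ hD
  linear_combination (x - algebraMap K F c₁) * heq + 1728 * h * hND

end J3

end Fermat.Agent.S52
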