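/-
S52, node [J3] (helper27).  Prefix `s52u_`.  [J3] FOR THE `x`-DIVISION FIELD OF `𝓔_t` ([F-ASM] setting).

With the hypotheses of helper2's `s52fa_genus_zero` (bridge + local analysis + `F` generated faithfully
by roots of `ψ₅`), the `x`-division field `F` of `𝓔_t : y² = x³ - 27 a t x - 54 b t` contains no point
of `X₀(3)` above `j(𝓔_t) = 1728 a³ t / (a³ t - b²)`:

  `s52u_j3_fasm : (h + 27) (h + 3)³ (a³ t - b²) ≠ 1728 (a³ t) h`   for all `h ∈ F`.
-/
import Mathlib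
import Fermat.Agent.S52.HUR.J3
import Fermat.Agent.S52.FASM.Genus

set_option autoImplicit false
set_option linter.unusedSectionVars false

noncomputable section

namespace Fermat.Agent.S52

open AlgebraicCurve IntermediateField IsLocalRing Polynomial
open WeierstrassCurve WeierstrassCurve.Affine
open Fermat.Agent.S24 Fermat.Agent.S13
open scoped Pointwise

universe u v
variable {K : Type u} {F : Type v} [Field K] [Field F] [Algebra K F]
variable [IsAlgClosed K] [CharZero K]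

/-- the stabilisers of the places over `t = b²/a³` (`j = ∞`) have exponent `4` or `5`. -/
theorem s52u_node_fasm (t : F) (ht : Transcendental K t) [FiniteDimensional K⟮t⟯ F]
    [IsGalois K⟮t⟯ F] (a b : K) (ha : a ≠ 0) (hb : b ≠ 0)
    (hB : s52fa_Bridge (K := K) t) (hL : s52fa_RamLoc (K := K) t a b)
    (R : Set F) (hR : ∀ r ∈ R, (s52fa_psi t a b).eval r = 0)
    (hfaith : ∀ σ : F ≃ₐ[↥K⟮t⟯] F, (∀ r ∈ R, σ r = r) → σ = 1) :
    ∀ v ∈ hw_placesOver t (b ^ 2 / a ^ 3), ∀ σ : F ≃ₐ[↥K⟮t⟯] F,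
      (∀ f ∈ v.toValuationSubring, σ f ∈ v.toValuationSubring) → σ ^ 4 = 1 ∨ σ ^ 5 = 1 := by
  intro v hv σ hσ
  obtain ⟨A, σ', hA, hext, hin⟩ := hB v σ hσ
  have hnat : ∀ n : ℕ, n ≠ 0 → A.valuation ((n : ℕ) : s52fa_Om F) = 1 := fun n hn =>
    s52fa_val_ofNat A.valuation (s52fa_const_val v A hA) n hn
  have hfix : ∀ e : ℕ, s52fa_FixX t a b (σ' ^ e) → σ ^ e = 1 := by
    intro e he
    apply hfaith
    intro r hr
    exact s52fa_fix_of_fixX t ht a b ha σ σ' hext e he r (hR r hr)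
  have hlt := s52fa_val_sub_lt v A hA ht (b ^ 2 / a ^ 3) hv
  have hcab : a ^ 3 * (b ^ 2 / a ^ 3) = b ^ 2 := by
    field_simp
  have hne : algebraMap F (s52fa_Om F) t ≠ algebraMap K (s52fa_Om F) (b ^ 2 / a ^ 3) := by
    intro h
    apply ht
    rw [IsScalarTower.algebraMap_apply K F (s52fa_Om F)] at h
    rw [(FaithfulSMul.algebraMap_injective F (s52fa_Om F)) h]
    exact isAlgebraic_algebraMap _
  have hJ := s52fa_val_node A.valuation (s52fa_const_val v A hA) a b (b ^ 2 / a ^ 3) ha hb hcab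
    (algebraMap F (s52fa_Om F) t) hne hlt
  rw [← s52fa_JOm_eq] at hJ
  rcases hL.infty A σ' hnat hin hJ with h4 | h5
  · exact Or.inl (hfix 4 h4)
  · exact Or.inr (hfix 5 h5)

/-- **[J3] in the [F-ASM] setting**: no point of `X₀(3)` over the `x`-division field of `𝓔_t`
above `j(𝓔_t) = 1728 a³ t / (a³ t - b²)`. -/
theorem s52u_j3_fasm (t : F) (ht : Transcendental K t) [FiniteDimensional K⟮t⟯ F]
    [IsGalois K⟮t⟯ F] (a b : K) (ha : a ≠ 0) (hb : b ≠ 0)
    (hB : s52fa_Bridge (K := K) t) (hL : s52fa_RamLoc (K := K) t a b)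
    (R : Set F) (hR : ∀ r ∈ R, (s52fa_psi t a b).eval r = 0)
    (hfaith : ∀ σ : F ≃ₐ[↥K⟮t⟯] F, (∀ r ∈ R, σ r = r) → σ = 1) (h : F) :
    (h + 27) * (h + 3) ^ 3 * (algebraMap K F a ^ 3 * t - algebraMap K F b ^ 2) ≠
      1728 * (algebraMap K F a ^ 3 * t) * h := by
  have hc1 : b ^ 2 / a ^ 3 ≠ 0 := div_ne_zero (pow_ne_zero 2 hb) (pow_ne_zero 3 ha)
  have ha3 : algebraMap K F a ^ 3 ≠ 0 := pow_ne_zero 3 (by rw [Ne, map_eq_zero]; exact ha)
  have hD : algebraMap K F a ^ 3 * t - algebraMap K F b ^ 2 ≠ 0 := by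
    intro h0
    apply ht
    have h3 : t = algebraMap K F (b ^ 2 / a ^ 3) := by
      rw [map_div₀, map_pow, map_pow, eq_div_iff ha3]
      linear_combination h0
    rw [h3]
    exact isAlgebraic_algebraMap _
  refine s52u_j3_frac t ht (b ^ 2 / a ^ 3) hc1
    (s52u_node_fasm t ht a b ha hb hB hL R hR hfaith)
    (algebraMap K F a ^ 3 * t) (algebraMap K F a ^ 3 * t - algebraMap K F b ^ 2) hD ?_ h
  have ha1 : algebraMap K F a ≠ 0 := by rw [Ne, map_eq_zero]; exact ha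
  rw [map_div₀, map_pow, map_pow]
  field_simp

end Fermat.Agent.S52
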