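/-
S52, node [J3] (helper27).  Prefix `s52u_`.  TRANSPORT OF THE ROOTLESS CLAUSE ALONG A RING HOM.

Mathlib only.  `φ : R →+* L` a ring homomorphism into a field (e.g. `RatFunc ℚ →+* Fb`, `X ↦ s`),
`a b : R` with `φ a = ρ⁴ A t`, `φ b = ρ⁶ B t` (a twist/rescaling of the pencil `y² = x³ + A t x + B t`),
`c₁` with `4 A³ c₁ = -27 B²` (the value of `t` where `j = ∞`).  If the `X₀(3)`-quartic of
`j = 1728 t / (t - c₁)` has no root in `L`, then the `X₀(3)`-quartic of `(a, b)` has no root in `R`: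

  `s52u_j3_transport : ∀ h : R, (h + 27) (h + 3)³ (4 a³ + 27 b²) ≠ 1728 · 4 a³ · h`.
-/
import Mathlib

set_option autoImplicit false

namespace Fermat.Agent.S52

/-- **transport of the rootless clause** along a ring homomorphism into a field. -/
theorem s52u_j3_transport {R L : Type*} [CommRing R] [Field L] (φ : R →+* L) (a b : R)
    (t c₁ ρ A B : L) (hρ : ρ ≠ 0) (ht : t ≠ 0) (hA : A ≠ 0)
    (ha : φ a = ρ ^ 4 * A * t) (hb : φ b = ρ ^ 6 * B * t) (hc : 4 * A ^ 3 * c₁ = -27 * B ^ 2)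
    (hroot : ∀ h : L, (h + 27) * (h + 3) ^ 3 * (t - c₁) ≠ 1728 * t * h) :
    ∀ h : R, (h + 27) * (h + 3) ^ 3 * (4 * a ^ 3 + 27 * b ^ 2) ≠ 1728 * 4 * a ^ 3 * h := by
  intro h heq
  apply hroot (φ h)
  have h1 := congrArg φ heq
  simp only [map_add, map_mul, map_pow, map_ofNat, ha, hb] at h1
  have h2 : (4 : L) ≠ 0 := by
    intro h4
    -- `4 = 0` gives `1728 = 0`, and then `h = -27` is a root of the quartic
    have h1728 : (1728 : L) = 0 := by
      have : (1728 : L) = 4 * 432 := by norm_num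
      rw [this, h4, zero_mul]
    exact hroot (-27) (by rw [h1728]; ring)
  have hne : 4 * ρ ^ 12 * A ^ 3 * t ^ 2 ≠ 0 :=
    mul_ne_zero (mul_ne_zero (mul_ne_zero h2 (pow_ne_zero 12 hρ)) (pow_ne_zero 3 hA))
      (pow_ne_zero 2 ht)
  apply mul_left_cancel₀ hne
  linear_combination h1 - (φ h + 27) * (φ h + 3) ^ 3 * ρ ^ 12 * t ^ 2 * hc

end Fermat.Agent.S52
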